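import Fermat.Agent.LT2.Lift.Bridge
import Fermat.Agent.LT2.Period.Cycle
import Fermat.Agent.LT.Lift.Coef
import Fermat.Agent.LT.Mod3.Galois.Torsion

/-!
# Weight one from a period at arbitrary level

A form at level `N` with a nonzero period along the hyperbolic plane lifts, with the periodic
indicator of the cycle as weight, to a nonzero cusp form of weight one for `Γ(9 N)`; an eigenvalue
`√p a` at the places over a prime congruent to one becomes the relation with `a` of the
coefficients.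
-/

set_option autoImplicit false

noncomputable section

open Matrix IsDedekindDomain NumberField UpperHalfPlane
open scoped MatrixGroups Manifold ModularForm

namespace FermatAgent.LT2.Lift

open FermatAgent.LT
open FermatAgent.LT.Lift
open FermatAgent.LT.Period (IsEis place periodSum)
open FermatAgent.LT.Whit (adelGrp glob dG)
open FermatAgent.LT2.Period (cyc)

/-- A prime of the lifted eigensystem has a generator congruent to one. -/
lemma exists_isSplitOne {n p : ℕ} (hpp : p.Prime) (hp3 : p ≠ 3) (hcm : Mod3.IsCMPrime n p) :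
    ∃ ϖ : Eis, IsSplitOne n p ϖ := by
  obtain ⟨u, v, huv, ⟨a, ha⟩, ⟨b, hb⟩⟩ := hcm
  refine ⟨⟨u, v⟩, hpp, hp3, by rw [QuadraticAlgebra.norm_def, huv, Mod3.eisNorm]; ring, ⟨a, b⟩, ?_⟩
  ext
  · simp [natCast_eis, QuadraticAlgebra.re_one]; linear_combination ha
  · simp [natCast_eis, QuadraticAlgebra.im_one]; linear_combination hb

variable {K : Type*} [Field K] [NumberField K] [IsTotallyComplex K] {θ : K}

variable (hE : IsEis θ) (hemb : (place K).embedding θ = thC)
  {N : ℕ} {f : InfPts K → adelGrp K → ℂ}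
include hemb

omit hemb [IsTotallyComplex K] in
/-- The cycle is the restriction to the plane of the function on hyperbolic space. -/
lemma cyc_eq_clsF (hf : IsLiftForm ((N : K) / θ) f) [NeZero N] (z : ℍ) :
    cyc hE N f z = clsF hE f (emb (scaleN N • z, 0)) := by
  have hθ : thU hE = Units.mk0 θ hE.ne_zero := rfl
  have hpt : (dG (Period.natU K N) : G2 K) • (Period.ptR z : InfPts K) =
      infPt (emb (scaleN N • z, 0)) := by
    funext w
    rw [Whit.dG_smul_apply, Period.ptR_apply]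
    have hN0 : N ≠ 0 := NeZero.ne N
    have hre : (scaleN N • z).re = N * z.re := by
      have := congrArg Complex.re (coe_scaleN_smul (N := N) z)
      simpa using this
    have him : (scaleN N • z).im = N * z.im := by
      have := congrArg Complex.im (coe_scaleN_smul (N := N) z)
      simpa using this
    refine H3.ext ?_ ?_
    · simp [infPt, emb, Period.natU_val hN0, hre, Complex.ext_iff]
    · simp [infPt, emb, Period.natU_val hN0, him]
  rw [cyc, clsF, ← hpt, ← hf.glob_smul (dG (thU hE)) ((dG (hE.shift N) : G2 K) • Period.ptR z) 1,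
    mul_one, ← mul_smul, ← Whit.dG_mul]
  congr 4
  rw [IsEis.shift, hθ, mul_comm, mul_assoc, inv_mul_cancel, mul_one]

include hE in
/-- **Weight one from a period.** -/
theorem exists_lift [NeZero N] [NeZero (N ^ 2)] (h3 : 3 ∣ N)
    (hf : IsLiftForm ((N : K) / θ) f)
    (hcyc : ∀ g ∈ CongruenceSubgroup.Gamma0 (N ^ 2), ∀ z : ℍ,
      cyc hE N f (g • z) = cyc hE N f z)
    (hper : periodSum (N ^ 2) (cyc hE N f) ≠ 0) :
    ∃ F : ℍ → ℂ, MDiff F ∧ (∀ δ : SL(2, ℤ), IsZeroAtImInfty (F ∣[(1 : ℤ)] δ)) ∧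
      (∀ γ ∈ CongruenceSubgroup.Gamma (9 * N), F ∣[(1 : ℤ)] γ = F) ∧ F ≠ 0 ∧
      ∀ (p : ℕ) (a : ℂ), p.Prime → ¬p ∣ 9 * N → Mod3.IsCMPrime (9 * N) p →
        (∀ v : HeightOneSpectrum (𝓞 K), (p : 𝓞 K) ∈ v.asIdeal →
          Whit.heckeT v f = ((√(p : ℝ) : ℂ) * a) • f) →
        ∀ n : ℕ, (qExpansion ((9 * N : ℕ) : ℝ) F).coeff (p * n) +
            (if p ∣ n then (qExpansion ((9 * N : ℕ) : ℝ) F).coeff (n / p) else 0) =
          a * (qExpansion ((9 * N : ℕ) : ℝ) F).coeff n := by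
  obtain ⟨M, rfl⟩ := h3
  have : NeZero M := ⟨fun h => NeZero.ne (3 * M) (by rw [h, mul_zero])⟩
  have hNn : 3 * M ∣ 27 * M := ⟨9, by ring⟩
  set Φ := clsF hE f with hΦdef
  have hΦ : IsCusp (27 * M) Φ := isCusp_clsF hE hemb hf (dvd_mul_right 3 M) hNn
  have hce : cyc hE (3 * M) f = fun z => Φ (emb (scaleN (3 * M) • z, 0)) :=
    funext fun z => cyc_eq_clsF hE hf z
  have hn : 3 * (9 * M) ∣ 27 * M := ⟨1, by ring⟩
  have ha : aCoef (27 * M) (9 * M) Φ (wOrb M) 9 ≠ 0 := by
    refine aCoef_cycle_ne_zero hΦ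
      (fun g hg q => clsF_inv hE hemb hf (dvd_mul_right 3 M) dvd_rfl hg q) (fun g hg z => ?_) ?_
    · have h := hcyc g hg z
      rwa [hce] at h
    · rwa [hce] at hper
  have : NeZero (3 * (9 * M)) := ⟨mul_ne_zero three_ne_zero (NeZero.ne _)⟩
  have h27 : 9 * (3 * M) = 3 * (9 * M) := by ring
  refine ⟨Lam (27 * M) (9 * M) Φ (wOrb M), mdiff_Lam hΦ hn isPer_wOrb,
    cusp_Lam hΦ hn isPer_wOrb, fun γ hγ => Lam_Gamma isPer_wOrb (by rwa [h27] at hγ),
    fun h0 => ha ?_, fun p a hp hpk hcm hv j => ?_⟩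
  · rw [← coeff_Lam hΦ hn isPer_wOrb, h0, UpperHalfPlane.qExpansion_zero, map_zero]
  have e27 : 9 * (3 * M) = 27 * M := by ring
  rw [e27] at hpk hcm
  have hp3 : p ≠ 3 := fun e => hpk (e ▸ ⟨9 * M, by ring⟩)
  obtain ⟨ϖ, hsp⟩ := exists_isSplitOne hp hp3 hcm
  rw [h27]
  exact hecke_Lam (k := 9 * M) (w := wOrb M) hsp hpk hΦ hn isPer_wOrb
    (fun q => sum_nbr_clsF hE hemb hsp hf (dvd_mul_right 3 M) hNn
      (hv _ (natCast_mem_primePlace hE hsp)) hpk q) j

end FermatAgent.LT2.Lift
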