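import Fermat.Agent.LT2.Period.Slice
import Fermat.Agent.LT.Lift.Bridge

/-!
# From forms of deep level to functions on hyperbolic space

A form fixed by the congruence subgroup of `N / θ` gives, at the different, a cuspidal eigenfunction
of the congruence group of `N`, with the Hecke relations at the primes congruent to one.  A good
form of tame level is such a form for every `N` divisible by three and by its places.
-/

set_option autoImplicit false

noncomputable section

open Matrix IsDedekindDomain NumberField Filter MeasureTheory WithZero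
open scoped MatrixGroups ContDiff

namespace FermatAgent.LT2.Lift

open FermatAgent.LT
open FermatAgent.LT.Lift
open FermatAgent.LT.Period (IsEis zeta place IsGood)
open FermatAgent.LT.Whit (adelGrp glob atV IsRadial hT nB dG)

variable {K : Type*} [Field K] [NumberField K]

/-- Every component is congruent to the identity modulo `x`. -/
def IsCong (x : K) (u : adelGrp K) : Prop :=
  ∀ v : HeightOneSpectrum (𝓞 K), ∃ M ∈ locGL v,
    (∀ i j, v.valuation K ((M.val - 1) i j) ≤ v.valuation K x) ∧ ProjGenLinGroup.mk M = u.1 v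

/-- What the lift uses of a form: invariance, the level, boundedness, decay and the eigenvalue of
the radial operators. -/
structure IsLiftForm (x : K) (f : InfPts K → adelGrp K → ℂ) : Prop where
  glob_smul : ∀ (γ : G2 K) (y : InfPts K) (a : adelGrp K), f (γ • y) (glob γ * a) = f y a
  right_inv : ∀ (y : InfPts K) (a u : adelGrp K), IsCong x u → f y (a * u) = f y a
  cont : ∀ a, Continuous fun y => f y a
  bdd : ∃ B, ∀ y a, ‖f y a‖ ≤ B
  radial : IsRadial f
  decay : ∀ a : adelGrp K, ∃ C κ : ℝ, 0 ≤ C ∧ 0 < κ ∧ ∀ y : InfPts K, 1 ≤ (y (place K)).t →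
    ‖f y a‖ ≤ C * Real.exp (-(κ * (y (place K)).t))

variable {θ : K} (hE : IsEis θ)

include hE in
/-- The element `θ` is integral. -/
lemma val_theta_le (v : HeightOneSpectrum (𝓞 K)) : v.valuation K θ ≤ 1 :=
  hE.coe_thetaO ▸ v.valuation_le_one _

include hE in
/-- The shift as an integral multiple of `θ`. -/
lemma shift_eq_neg {m : ℕ} : ((3 * m : ℕ) : K) / θ = -θ * (m : K) := by
  have := hE.ne_zero
  push_cast
  field_simp
  linear_combination (m : K) * hE.sq

include hE in
/-- The shift is integral for levels divisible by three. -/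
lemma val_shift_le_one {N : ℕ} (h3 : 3 ∣ N) (v : HeightOneSpectrum (𝓞 K)) :
    v.valuation K ((N : K) / θ) ≤ 1 := by
  obtain ⟨m, rfl⟩ := h3
  rw [shift_eq_neg hE, map_mul, Valuation.map_neg]
  exact mul_le_one' (val_theta_le hE v) (Period.val_intCast_le m)

include hE in
lemma val_mul_le_shift {N : ℕ} (v : HeightOneSpectrum (𝓞 K)) {y : K} (hy : v.valuation K y ≤ 1) :
    v.valuation K ((N : K) * y) ≤ v.valuation K ((N : K) / θ) := by
  rw [show (N : K) * y = (N : K) / θ * (θ * y) by field_simp [hE.ne_zero],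
    map_mul (v.valuation K) ((N : K) / θ), map_mul (v.valuation K) θ]
  exact mul_le_of_le_one_right zero_le (mul_le_one' (val_theta_le hE v) hy)

/-- The identity matrix is integral. -/
lemma val_one_le (v : HeightOneSpectrum (𝓞 K)) (i j : Fin 2) :
    v.valuation K ((1 : Matrix (Fin 2) (Fin 2) K) i j) ≤ 1 := by
  fin_cases i <;> fin_cases j <;> simp

lemma isCong_atV {x : K} {v : HeightOneSpectrum (𝓞 K)} (hx : v.valuation K x = 1) {g : G2 K}
    (hg : g ∈ locK v) : IsCong x (atV v g) := by
  intro w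
  by_cases h : w = v
  · subst h
    obtain ⟨M, hM, rfl⟩ := hg
    refine ⟨M, hM, fun i j => ?_, (Whit.atV_same _ _).symm⟩
    rw [hx, Matrix.sub_apply]
    exact ((w.valuation K).map_sub _ _).trans (max_le (hM.1 i j) (val_one_le w i j))
  · refine ⟨1, one_mem _, fun i j => ?_, by rw [Whit.atV_ne h, map_one]⟩
    simp

variable {f : InfPts K → adelGrp K → ℂ} {x : K}

/-- At a unit of the modulus a form is fixed by the maximal compact subgroup. -/
lemma IsLiftForm.fixedAt (hf : IsLiftForm x f) {v : HeightOneSpectrum (𝓞 K)}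
    (hv : v.valuation K x = 1) : Whit.FixedAt f v (locK v) := fun _ hg y a =>
  hf.right_inv y a _ (isCong_atV hv hg)

variable {N n : ℕ}

/-- The congruence group of `N` lands in the congruence subgroup of `N / θ`. -/
lemma isCong_cjM {g : SLE} (h3 : 3 ∣ N) (hg : g ∈ congE N) :
    IsCong ((N : K) / θ) (glob (ProjGenLinGroup.mk (cjM hE g))) := by
  obtain ⟨X, hX, e, hX01⟩ := exists_congE_repr hE h3 hg
  intro v
  have hN : v.valuation K (N : K) ≤ 1 := Period.val_intCast_le N
  have hθ := val_theta_le hE v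
  have h1 : ∀ z : K, v.valuation K z ≤ 1 → v.valuation K (1 + (N : K) * z) ≤ 1 := fun z hz =>
    ((v.valuation K).map_add _ _).trans (max_le (map_one _).le (by
      rw [map_mul]; exact mul_le_one' hN hz))
  refine ⟨cjM hE g, ⟨fun i j => ?_, by rw [det_cjM, map_one]⟩, ?_, rfl⟩
  · rw [e]
    fin_cases i <;> fin_cases j <;> simp [map_mul] <;>
      first
        | exact h1 _ (hX v _ _)
        | exact mul_le_one' hθ (hX v _ _)
        | exact mul_le_one' (mul_le_one' hN hθ) (hX v _ _)
  · rw [e, Fin.forall_fin_two]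
    simp only [Fin.forall_fin_two, Matrix.sub_apply, Matrix.of_apply, Matrix.cons_val',
      Matrix.cons_val_zero, Matrix.cons_val_one, Matrix.cons_val_fin_one, Matrix.one_apply_eq,
      Matrix.one_apply_ne (zero_ne_one : (0 : Fin 2) ≠ 1),
      Matrix.one_apply_ne (one_ne_zero : (1 : Fin 2) ≠ 0), sub_zero, add_sub_cancel_left]
    refine ⟨⟨val_mul_le_shift hE v (hX v _ _), ?_⟩, ⟨?_, val_mul_le_shift hE v (hX v _ _)⟩⟩
    · obtain ⟨m, rfl⟩ := h3
      rw [hX01, shift_eq_neg hE, Nat.mul_div_cancel_left _ (by norm_num : 0 < 3), ← mul_assoc,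
        map_mul (v.valuation K) (θ * -(m : K))]
      refine (mul_le_of_le_one_right zero_le (val_toK_le hE v _)).trans ?_
      simp only [mul_neg, neg_mul, Valuation.map_neg, le_refl]
    · rw [mul_assoc]
      exact val_mul_le_shift hE v (by rw [map_mul]; exact mul_le_one' hθ (hX v _ _))

include hE in
/-- At the places of `N` its quotient by the different is small. -/
lemma val_shift_lt_one (h3 : 3 ∣ N) {v : HeightOneSpectrum (𝓞 K)} (hv : (N : 𝓞 K) ∈ v.asIdeal) :
    v.valuation K ((N : K) / θ) < 1 := by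
  obtain ⟨m, rfl⟩ := h3
  rw [shift_eq_neg hE, map_mul, Valuation.map_neg]
  by_cases h : (3 : 𝓞 K) ∈ v.asIdeal
  · exact mul_lt_one_of_lt_of_le (three_theta_mem hE h) (Period.val_intCast_le m)
  · push_cast at hv
    refine Right.mul_lt_one_of_le_of_lt (val_theta_le hE v) ?_
    rw [← map_natCast (algebraMap (𝓞 K) K), v.valuation_lt_one_iff_mem]
    exact (v.isPrime.mem_or_mem hv).resolve_left h

/-- Congruence to the identity gives the tame level at the places where the modulus is small. -/
lemma IsCong.mem_levelGrp {S : Finset (HeightOneSpectrum (𝓞 K))}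
    (hS : ∀ v ∈ S, v.valuation K x < 1) {u : adelGrp K} (hu : IsCong x u) :
    u ∈ Whit.levelGrp (Level.ofFinset S) := fun v => by
  obtain ⟨M, hM, hd, e⟩ := hu v
  show u.1 v ∈ _
  rw [← e]
  by_cases hv : v ∈ S
  · rw [Whit.ofFinset_loc_of_mem hv]
    have h := fun i j => (hd i j).trans_lt (hS v hv)
    refine Subgroup.mem_map_of_mem _ ⟨hM, by simpa using h 0 1, by simpa using h 1 0, ?_⟩
    rw [show M.val 0 0 - M.val 1 1 = (M.val - 1) 0 0 - (M.val - 1) 1 1 by simp]
    exact ((v.valuation K).map_sub _ _).trans_lt (max_lt (h 0 0) (h 1 1))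
  · rw [Whit.ofFinset_loc_of_notMem hv]
    exact Subgroup.mem_map_of_mem _ hM

variable [IsTotallyComplex K]

include hE in
/-- A good form of tame level is a form for the lift. -/
theorem isLiftForm_of_isGood {S : Finset (HeightOneSpectrum (𝓞 K))}
    {c : HeightOneSpectrum (𝓞 K) → ℂ} (hf : IsGood S c f) (h3 : 3 ∣ N)
    (hS : ∀ v ∈ S, (N : 𝓞 K) ∈ v.asIdeal) : IsLiftForm ((N : K) / θ) f where
  glob_smul := hf.form.glob_smul
  right_inv y a u hu :=
    hf.form.right_inv y a u (hu.mem_levelGrp fun v hv => val_shift_lt_one hE h3 (hS v hv))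
  cont := hf.form.cont
  bdd := hf.form.bdd
  radial := hf.radial
  decay := LT2.Period.exists_decay hf.deep (place K) hE.eq_place

variable (hemb : (place K).embedding θ = thC)
include hemb

/-- The congruence group fixes the function on hyperbolic space. -/
theorem clsF_inv (hf : IsLiftForm ((N : K) / θ) f) (h3 : 3 ∣ N) (hNn : N ∣ n)
    {g : SLE} (hg : g ∈ congE n) (p : H3) : clsF hE f (g • p) = clsF hE f p := by
  show f (infPt (g • p)) _ = f (infPt p) _
  rw [← gK_smul_infPt hE hemb,
    show glob (dG (thU hE)) = glob (gK hE g) *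
      (glob (dG (thU hE)) * glob (ProjGenLinGroup.mk (cjM hE g⁻¹))) by
      rw [mk_cjM, ← map_mul, ← map_mul]; simp [mul_assoc],
    hf.glob_smul, hf.right_inv _ _ _ (isCong_cjM hE h3 (inv_mem (congE_anti hNn hg)))]
  congr 1
  rw [mk_cjM, ← map_mul, ← map_mul]; simp [mul_assoc]

/-- The function of a form is a cuspidal eigenfunction of the level. -/
theorem isCusp_clsF (hf : IsLiftForm ((N : K) / θ) f) (h3 : 3 ∣ N) (hNn : N ∣ n) :
    IsCusp n (clsF hE f) := by
  classical
  refine ⟨⟨(hf.cont _).comp continuous_infPt, fun g hg p => clsF_inv hE hemb hf h3 hNn hg p,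
    fun g => ?_⟩, fun k hk hs p => ?_⟩
  · obtain ⟨C, κ, hC, hκ, hb⟩ := hf.decay (glob ((gK hE g)⁻¹ * dG (thU hE)))
    obtain ⟨B, hB⟩ := hf.bdd
    have hB0 : 0 ≤ B := (norm_nonneg _).trans (hB (fun _ => H3.base) 1)
    refine ⟨max C (B * Real.exp κ), κ, le_max_of_le_left hC, hκ, fun p hp => ?_⟩
    have e : clsF hE f (g • p) = f (infPt p) (glob ((gK hE g)⁻¹ * dG (thU hE))) := by
      show f (infPt (g • p)) _ = _
      rw [← gK_smul_infPt hE hemb, show glob (dG (thU hE)) =
        glob (gK hE g) * glob ((gK hE g)⁻¹ * dG (thU hE)) by rw [← map_mul, mul_inv_cancel_left],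
        hf.glob_smul]
    rw [e]
    by_cases h1 : 1 ≤ p.t
    · exact (hb (infPt p) h1).trans
        (mul_le_mul_of_nonneg_right (le_max_left _ _) (Real.exp_pos _).le)
    · refine (hB _ _).trans (le_trans ?_
        (mul_le_mul_of_nonneg_right (le_max_right _ _) (Real.exp_pos _).le))
      rw [mul_assoc, ← Real.exp_add]
      exact le_mul_of_one_le_right hB0 (Real.one_le_exp (by nlinarith [not_le.1 h1]))
  · have h := hf.radial (place K) k hk hs (infPt p) (glob (dG (thU hE)))
    show Whit.kint _ (fun q => f (infPt q) (glob (dG (thU hE)))) = hT k * f (infPt p) _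
    simpa [update_infPt hE, infPt] using h

variable {p : ℕ} {ϖ : Eis} (hp : IsSplitOne n p ϖ) [NeZero n]
include hp

omit hemb [NeZero n] in
/-- Off the split prime the translate is congruent to the identity. -/
private lemma isCong_nbrK (i : Option (Fin p)) {x : K}
    (hπw : ∀ w, w ≠ primePlace hE hp → w.valuation K (toK hE ϖ) = 1)
    (hπx : ∀ w : HeightOneSpectrum (𝓞 K), w.valuation K (toK hE ϖ - 1) ≤ w.valuation K x)
    (hb : ∀ (w : HeightOneSpectrum (𝓞 K)) (j : ℕ),
      w.valuation K (((n * j : ℕ) : K) / θ) ≤ w.valuation K x)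
    (hx1 : ∀ w : HeightOneSpectrum (𝓞 K), w.valuation K x ≤ 1) :
    IsCong x ((atV (primePlace hE hp) (ProjGenLinGroup.mk (nbrK hE hp i)))⁻¹ *
      glob (ProjGenLinGroup.mk (nbrK hE hp i))) := by
  set v := primePlace hE hp
  set δ : G2 K := ProjGenLinGroup.mk (nbrK hE hp i) with hδ
  intro w
  show ∃ M ∈ locGL w, _ ∧ _ = ((atV v δ).1 w)⁻¹ * δ
  rcases eq_or_ne w v with rfl | hw
  · refine ⟨1, one_mem _, fun a b => by simp, ?_⟩
    rw [Whit.atV_same, inv_mul_cancel, map_one]
  · refine ⟨nbrK hE hp i, ?_, ?_, by rw [Whit.atV_ne hw, inv_one, one_mul]⟩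
    · rcases i with _ | i
      · refine ⟨fun a b => ?_, ?_⟩
        · fin_cases a <;> fin_cases b <;> simp [nbrK, hπw w hw]
        · simp [nbrK, hπw w hw]
      · refine ⟨fun a b => ?_, ?_⟩
        · fin_cases a <;> fin_cases b
          · simp [nbrK, hπw w hw]
          · exact (hb w i).trans (hx1 w)
          · simp [nbrK]
          · simp [nbrK]
        · simp [nbrK, hπw w hw]
    · intro a b
      rcases i with _ | i <;> fin_cases a <;> fin_cases b <;>
        first
          | (simp [nbrK]; done)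
          | (simp [nbrK]; exact hπx w)
          | (simpa [nbrK] using hb w i)

omit [NeZero n] in
/-- A translate of the point is a translate of the form. -/
private lemma clsF_nbrM_eq (hf : IsLiftForm x f) (i : Option (Fin p)) (q : H3) :
    f (infPt q) (glob (dG (thU hE) * ProjGenLinGroup.mk (nbrK hE hp i))) =
      clsF hE f (pgM (nbrM n p ϖ i).adjugate • q) := by
  set δ : G2 K := ProjGenLinGroup.mk (nbrK hE hp i) with hδ
  have hne : (nbrM n p ϖ i).det ≠ 0 := by rw [(isGood_nbrM hp i).det]; exact hp.ne_zero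
  set G : GL (Fin 2) K := GeneralLinearGroup.mkOfDetNeZero ((nbrM n p ϖ i).map (toK hE)) (by
    rw [← RingHom.mapMatrix_apply, ← RingHom.map_det]
    exact (map_ne_zero_iff _ (toK_injective hE)).2 hne)
  have e1 : dG (thU hE) * δ = ProjGenLinGroup.mk G * dG (thU hE) := by
    rw [hδ, dG, ← map_mul, ← map_mul]
    congr 1
    apply Units.ext
    have hθ := hE.ne_zero
    rcases i with _ | i <;> ext a b <;> fin_cases a <;> fin_cases b <;>
      simp [G, nbrK, nbrM, thU, Matrix.mul_apply, Fin.sum_univ_two] <;> field_simp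
  have e2 : (infPt q : InfPts K) =
      (ProjGenLinGroup.mk G : G2 K) • infPt (pgM (nbrM n p ϖ i).adjugate • q) := by
    rw [mk_smul_infPt hE hemb G _ rfl, ← mul_smul, pgM_mul_adjugate hne, one_smul]
  rw [e1, map_mul, e2, hf.glob_smul]
  rfl

omit [NeZero n] in
/-- The Hecke relation on hyperbolic space. -/
theorem sum_nbr_clsF (hf : IsLiftForm ((N : K) / θ) f) (h3 : 3 ∣ N) (hNn : N ∣ n) {c₀ : ℂ}
    (hheck : Whit.heckeT (primePlace hE hp) f = c₀ • f) (hpn : ¬p ∣ n) (q : H3) :
    ∑ i, clsF hE f (pgM (nbrM n p ϖ i).adjugate • q) = c₀ * clsF hE f q := by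
  classical
  have := Fact.mk hp.prime
  set v := primePlace hE hp
  set x : K := (N : K) / θ with hx
  have hϖ := val_primePlace hE hp
  have hpv : (p : 𝓞 K) ∈ v.asIdeal := natCast_mem_primePlace hE hp
  have hcop : p.Coprime N := (Nat.Prime.coprime_iff_not_dvd hp.prime).2 fun h => hpn (h.trans hNn)
  have hθv : v.valuation K θ = 1 := val_theta_primePlace hE hp
  have hxv : v.valuation K x = 1 := by
    rw [hx, map_div₀, hθv, div_one, ← map_natCast (algebraMap (𝓞 K) K)]
    refine le_antisymm (v.valuation_le_one _) (not_lt.1 fun h => ?_)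
    exact Period.coprime_notMem hcop hpv ((v.valuation_lt_one_iff_mem _).1 h)
  obtain ⟨r, hr⟩ := hNn
  have hx1 := fun w => val_shift_le_one hE h3 w
  have hb : ∀ (w : HeightOneSpectrum (𝓞 K)) (i : ℕ),
      w.valuation K (((n * i : ℕ) : K) / θ) ≤ w.valuation K x := fun w i => by
    rw [show ((n * i : ℕ) : K) / θ = x * ((r * i : ℕ) : K) by rw [hx, hr]; push_cast; ring, map_mul]
    exact mul_le_of_le_one_right zero_le (Period.val_intCast_le _)
  have hπw : ∀ w : HeightOneSpectrum (𝓞 K), w ≠ v → w.valuation K (toK hE ϖ) = 1 := fun w hw => by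
    rw [val_toK_eq_one_iff]
    intro h
    refine hw (HeightOneSpectrum.ext
      (Ideal.IsMaximal.eq_of_le v.isMaximal w.isPrime.ne_top ?_).symm)
    show Ideal.span {toO hE ϖ} ≤ _
    rwa [Ideal.span_singleton_le_iff_mem]
  have hπx : ∀ w : HeightOneSpectrum (𝓞 K), w.valuation K (toK hE ϖ - 1) ≤ w.valuation K x := by
    intro w
    obtain ⟨z, hz⟩ := hp.dvd
    rw [← map_one (toK hE), ← map_sub, hz, map_mul, map_natCast, hr]
    rw [Nat.cast_mul, mul_assoc]
    refine val_mul_le_shift hE w ?_
    rw [map_mul]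
    exact mul_le_one' (Period.val_intCast_le _) (val_toK_le hE w _)
  -- the global translates
  have hkey : ∀ i, clsF hE f (pgM (nbrM n p ϖ i).adjugate • q) =
      f (infPt q) (glob (dG (thU hE)) * atV v (ProjGenLinGroup.mk (nbrK hE hp i))) := by
    intro i
    set δ : G2 K := ProjGenLinGroup.mk (nbrK hE hp i)
    rw [← hf.right_inv (infPt q) (glob (dG (thU hE)) * atV v δ) _
        (isCong_nbrK hE hp i hπw hπx hb hx1),
      show glob (dG (thU hE)) * atV v δ * ((atV v δ)⁻¹ * glob δ) =
        glob (dG (thU hE) * δ) by rw [map_mul]; group]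
    exact (clsF_nbrM_eq hE hemb hp hf i q).symm
  -- the residues
  let t : Fin p → K := fun i => ((n * i : ℕ) : K) / θ
  have hres := fun s hs => exists_translate_residue hE hp hpn (s := s) hs
  have hinj := fun i j h => translate_eq_of_near hE hp hpn (i := i) (j := j) h
  choose σ hσ using fun i : Fin p =>
    (Whit.isResidues v).exists_mem (t i) ((hb v i).trans (hx1 v))
  set u : Kˣ := Units.mk0 (toK hE ϖ) ((map_ne_zero_iff _ (toK_injective hE)).2 hp.ne_zero)
  have hsum : ∑ i : Fin p, f (infPt q) (glob (dG (thU hE)) * atV v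
      (ProjGenLinGroup.mk (nbrK hE hp (some i)))) =
      ∑ s ∈ Whit.residues v, f (infPt q) (glob (dG (thU hE)) * atV v (Whit.nbr v s)) := by
    refine Finset.sum_bij (fun i _ => σ i) (fun i _ => (hσ i).1) (fun i _ j _ e => hinj i j ?_)
      (fun s hs => ?_) fun i _ => ?_
    · rw [show t i - t j = (t i - σ i) - (t j - σ j) by rw [e]; ring]
      exact lt_of_le_of_lt ((v.valuation K).map_sub _ _) (max_lt (hσ i).2 (hσ j).2)
    · obtain ⟨i, hi⟩ := hres s ((Whit.isResidues v).le_one s hs)
      refine ⟨i, Finset.mem_univ _, (Whit.isResidues v).unique _ (hσ i).1 s hs ?_⟩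
      rw [show σ i - s = -((t i - σ i) + (s - t i)) by ring, Valuation.map_neg]
      exact (v.valuation K).map_add_lt (hσ i).2 hi
    · rw [← (hf.fixedAt hxv).nbr_congr (hσ i).2 (ϖ := u) hϖ]
      rw [nB, dG, ← map_mul]
      congr 4
      apply Units.ext
      ext a b
      fin_cases a <;> fin_cases b <;> simp [u, nbrK, t, Matrix.mul_apply, Fin.sum_univ_two]
  have hlast : f (infPt q) (glob (dG (thU hE)) * atV v (ProjGenLinGroup.mk (nbrK hE hp none))) =
      f (infPt q) (glob (dG (thU hE)) * atV v (Whit.nbrLast v)) := by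
    rw [← (hf.fixedAt hxv).nbrLast_congr (ϖ := u) hϖ]
    congr 3
    rw [dG, eq_comm, Matrix.ProjGenLinGroup.mk_eq_mk_iff]
    refine ⟨u, ?_⟩
    apply Units.ext
    ext a b
    fin_cases a <;> fin_cases b <;>
      simp [nbrK, u, GeneralLinearGroup.coe_scalar, Matrix.mul_apply, Fin.sum_univ_two,
        (map_ne_zero_iff _ (toK_injective hE)).2 hp.ne_zero]
  rw [Finset.sum_congr rfl fun i _ => hkey i, Fintype.sum_option, hsum, hlast, add_comm]
  exact congrFun (congrFun hheck (infPt q)) (glob (dG (thU hE)))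

end FermatAgent.LT2.Lift
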