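import Fermat.Agent.LT2.Lift.Main

/-!
# Reaching the level of the shift by a translate

A form fixed deep in the level and by the translations at the shift `x` becomes, translated by the
part of `diag(r, 1)` at the level, a form fixed by everything congruent to one modulo `r x`; its
cycle at the shift `r x` is the old cycle.
-/

set_option autoImplicit false

noncomputable section

open Matrix IsDedekindDomain NumberField UpperHalfPlane Filter
open scoped MatrixGroups Manifold ModularForm

namespace FermatAgent.LT2.Lift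

open FermatAgent.LT
open FermatAgent.LT.Lift
open FermatAgent.LT.Period (IsEis place periodSum)
open FermatAgent.LT.Whit (adelGrp glob atV dG nB)
open FermatAgent.LT2.Period (cyc)

variable {K : Type*} [Field K] [NumberField K]

open Classical in
/-- The components at `T` of a global element. -/
def partT (T : Finset (HeightOneSpectrum (𝓞 K))) (g : G2 K) : adelGrp K :=
  ⟨fun v => if v ∈ T then g else 1, show ∀ᶠ v in cofinite, _ by
    filter_upwards [T.finite_toSet.compl_mem_cofinite] with v hv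
    rw [if_neg (by simpa using hv)]
    exact one_mem _⟩

open Classical in
lemma partT_apply (T : Finset (HeightOneSpectrum (𝓞 K))) (g : G2 K)
    (v : HeightOneSpectrum (𝓞 K)) : (partT T g).1 v = if v ∈ T then g else 1 := rfl

variable [IsTotallyComplex K] {f : InfPts K → adelGrp K → ℂ}

omit [IsTotallyComplex K] in
/-- **The translate has the level of the shift.** -/
theorem isLiftForm_rt {x x' : K} {r : Kˣ} {T : Finset (HeightOneSpectrum (𝓞 K))}
    (hf : LT2.Whit.IsForm f) (hrad : Whit.IsRadial f)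
    (hdec : ∀ a : adelGrp K, ∃ C κ : ℝ, 0 ≤ C ∧ 0 < κ ∧ ∀ y : InfPts K, 1 ≤ (y (place K)).t →
      ‖f y a‖ ≤ C * Real.exp (-(κ * (y (place K)).t)))
    (hU : ∀ y a u, IsCong x' u → f y (a * u) = f y a)
    (hN : ∀ v ∈ T, ∀ b : K, v.valuation K b ≤ v.valuation K x →
      ∀ y a, f y (a * atV v (nB b)) = f y a)
    (hx' : ∀ v ∉ T, v.valuation K x' = 1)
    (hr1 : ∀ v : HeightOneSpectrum (𝓞 K), v.valuation K (r : K) ≤ 1)
    (hrx : ∀ v : HeightOneSpectrum (𝓞 K), v.valuation K ((r : K) * x) ≤ v.valuation K x')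
    (hrT : ∀ v ∈ T, v.valuation K ((r : K) * x) < 1) :
    IsLiftForm ((r : K) * x) (Whit.rt (partT T (dG r)) f) := by
  classical
  set h := partT T (dG r) with hh
  refine ⟨fun γ y a => by rw [Whit.rt, Whit.rt, mul_assoc]; exact hf.glob_smul γ y _,
    fun y a u hu => ?_,
    fun a => hf.cont _, hf.bdd.imp fun B hB y a => hB y _, hrad.rt h, fun a => hdec (a * h)⟩
  choose M hM hMx hMu using hu
  set x₂ : K := (r : K) * x with hx₂
  have hlt : ∀ v ∈ T, ∀ i j, v.valuation K (((M v).val - 1) i j) < 1 :=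
    fun v hv i j => (hMx v i j).trans_lt (hrT v hv)
  have hD : ∀ v ∈ T, v.valuation K ((M v).val 1 1) = 1 := fun v hv => by
    rw [show (M v).val 1 1 = 1 + ((M v).val - 1) 1 1 by simp,
      Valuation.map_add_eq_of_lt_left _ (by rw [map_one]; exact hlt v hv 1 1), map_one]
  set b : HeightOneSpectrum (𝓞 K) → K := fun v => (M v).val 0 1 / ((r : K) * (M v).val 1 1)
    with hbdef
  have hr0 : ∀ v : HeightOneSpectrum (𝓞 K), v.valuation K (r : K) ≠ 0 :=
    fun v => (Valuation.ne_zero_iff _).2 r.ne_zero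
  have hb : ∀ v ∈ T, v.valuation K (b v) ≤ v.valuation K x := fun v hv => by
    have h01 : v.valuation K ((M v).val 0 1) ≤ v.valuation K x₂ := by simpa using hMx v 0 1
    rw [hbdef, map_div₀, map_mul, hD v hv, mul_one, div_le_iff₀ (zero_lt_iff.2 (hr0 v))]
    exact h01.trans (by rw [hx₂, map_mul, mul_comm])
  set m : adelGrp K := ⟨fun v => if v ∈ T then nB (b v) else 1, show ∀ᶠ v in cofinite, _ by
    filter_upwards [T.finite_toSet.compl_mem_cofinite] with v hv
    rw [if_neg (by simpa using hv)]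
    exact one_mem _⟩
  have hmv : ∀ v, m.1 v = if v ∈ T then nB (b v) else 1 := fun v => rfl
  have hw : IsCong x' (m⁻¹ * (h⁻¹ * u * h)) := by
    intro v
    show ∃ N ∈ locGL v, _ ∧ _ = (m.1 v)⁻¹ * ((h.1 v)⁻¹ * u.1 v * h.1 v)
    by_cases hv : v ∈ T
    · set A := (M v).val 0 0
      set B := (M v).val 0 1
      set C := (M v).val 1 0
      set D := (M v).val 1 1 with hDdef
      have hD1 : v.valuation K D = 1 := hD v hv
      have hD0 : D ≠ 0 := fun e => by simp [e] at hD1
      have hA : v.valuation K (A - 1) ≤ v.valuation K x₂ := by simpa [A] using hMx v 0 0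
      have hB : v.valuation K B ≤ v.valuation K x₂ := by simpa [B] using hMx v 0 1
      have hC : v.valuation K C ≤ v.valuation K x₂ := by simpa [C] using hMx v 1 0
      have hD' : v.valuation K (D - 1) ≤ v.valuation K x₂ := by simpa [D] using hMx v 1 1
      have hA' : v.valuation K (A - B * C / D - 1) ≤ v.valuation K x₂ := by
        rw [show A - B * C / D - 1 = (A - 1) - B * C / D by ring]
        refine ((v.valuation K).map_sub _ _).trans (max_le hA ?_)
        rw [map_div₀, map_mul, hD1, div_one]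
        exact (mul_le_of_le_one_right zero_le (hC.trans (hrT v hv).le)).trans hB
      have hC' : v.valuation K ((r : K) * C) ≤ v.valuation K x₂ := by
        rw [map_mul]; exact (mul_le_of_le_one_left zero_le (hr1 v)).trans hC
      have hdet : A * D - B * C ≠ 0 := by
        have := (Matrix.GeneralLinearGroup.det (M v)).ne_zero
        rwa [Matrix.GeneralLinearGroup.val_det_apply, Matrix.det_fin_two] at this
      set Lm : GL (Fin 2) K := GeneralLinearGroup.mkOfDetNeZero
        !![A - B * C / D, 0; (r : K) * C, D] (by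
          rw [det_fin_two_of, zero_mul, sub_zero, sub_mul, div_mul_cancel₀ _ hD0]; exact hdet)
      refine ⟨Lm, ⟨fun i j => ?_, ?_⟩, fun i j => ?_, ?_⟩
      · have h1 : ∀ z : K, v.valuation K (z - 1) ≤ v.valuation K x₂ → v.valuation K z ≤ 1 :=
          fun z hz => by
            rw [show z = (z - 1) + 1 by ring]
            exact ((v.valuation K).map_add _ _).trans
              (max_le (hz.trans (hrT v hv).le) (map_one _).le)
        fin_cases i <;> fin_cases j <;> simp [Lm]
        · exact h1 _ hA'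
        · rw [← map_mul]; exact hC'.trans (hrT v hv).le
        · exact hD1.le
      · have e : Lm.val.det = (M v).val.det := by
          simp only [Lm, Matrix.GeneralLinearGroup.val_mkOfDetNeZero, det_fin_two_of]
          rw [Matrix.det_fin_two]
          field_simp
          ring
        rw [e]; exact (hM v).2
      · refine le_trans ?_ (hrx v)
        fin_cases i <;> fin_cases j <;>
          simp [Lm, Matrix.GeneralLinearGroup.val_mkOfDetNeZero]
        · simpa [hx₂, map_mul] using hA'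
        · simpa [hx₂, map_mul] using hC'
        · simpa [hx₂, map_mul] using hD'
      · rw [hmv, hh, partT_apply, if_pos hv, if_pos hv, ← hMu v, eq_inv_mul_iff_mul_eq, mul_assoc,
          eq_inv_mul_iff_mul_eq, nB, dG, ← map_mul, ← map_mul, ← map_mul]
        congr 1
        apply Units.ext
        ext i j
        fin_cases i <;> fin_cases j <;>
          simp [Lm, hbdef, Matrix.mul_apply, Fin.sum_univ_two,
            Matrix.GeneralLinearGroup.val_mkOfDetNeZero, A, B, C, D]
        all_goals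
          have hr' := r.ne_zero
          have hM11 : (M v).val 1 1 ≠ 0 := hD0
          field_simp
          try ring
    · refine ⟨M v, hM v, fun i j => ?_, ?_⟩
      · rw [hx' v hv, Matrix.sub_apply]
        exact ((v.valuation K).map_sub _ _).trans (max_le ((hM v).1 i j) (val_one_le v i j))
      · rw [hmv, hh, partT_apply, if_neg hv, if_neg hv]
        simpa using hMu v
  show f y (a * u * h) = f y (a * h)
  rw [show a * u * h = a * h * m * (m⁻¹ * (h⁻¹ * u * h)) by group, hU _ _ _ hw,
    Whit.right_of_supported (Φ := f y) T m (fun v hv => by rw [hmv, if_neg hv])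
      fun v hv c => by rw [hmv, if_pos hv]; exact hN v hv _ (hb v hv) y c]

variable {θ : K} (hE : IsEis θ)

omit [IsTotallyComplex K] in
/-- The cycle of the translate at the enlarged shift is the old cycle. -/
lemma cyc_rt {x' : K} {T : Finset (HeightOneSpectrum (𝓞 K))} {N r : ℕ} (hN0 : N ≠ 0) (hr0 : r ≠ 0)
    (hglob : ∀ (γ : G2 K) (y : InfPts K) (a : adelGrp K), f (γ • y) (glob γ * a) = f y a)
    (hU : ∀ y a u, IsCong x' u → f y (a * u) = f y a) (hx' : ∀ v ∉ T, v.valuation K x' = 1)
    (hr : ∀ v ∉ T, v.valuation K (r : K) = 1) (z : ℍ) :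
    cyc hE (N * r) (Whit.rt (partT T (dG (Period.natU K r))) f) z = cyc hE N f z := by
  classical
  set rU := Period.natU K r
  have hs : hE.shift (N * r) = rU * hE.shift N := Units.ext (by
    rw [Units.val_mul, hE.shift_val hN0, hE.shift_val (mul_ne_zero hN0 hr0),
      Period.natU_val hr0]
    push_cast
    ring)
  have hru : ∀ v ∉ T, v.valuation K ((rU⁻¹ : Kˣ) : K) = 1 := fun v hv => by
    rw [Units.val_inv_eq_inv_val, map_inv₀, Period.natU_val hr0, hr v hv, inv_one]
  set h := partT T (dG rU) with hh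
  have hw : IsCong x' ((glob (dG rU : G2 K))⁻¹ * h) := by
    intro v
    show ∃ M ∈ locGL v, _ ∧ _ = (dG rU : G2 K)⁻¹ * h.1 v
    by_cases hv : v ∈ T
    · refine ⟨1, one_mem _, fun a b => by simp, ?_⟩
      rw [hh, partT_apply, if_pos hv, inv_mul_cancel, map_one]
    · rw [hh, partT_apply, if_neg hv, mul_one, dG, ← map_inv]
      obtain ⟨M, hM, e⟩ := Whit.dG_mem_locK (hru v hv)
      refine ⟨M, hM, fun i j => ?_, ?_⟩
      · rw [hx' v hv, Matrix.sub_apply]
        exact ((v.valuation K).map_sub _ _).trans (max_le (hM.1 i j) (val_one_le v i j))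
      · rw [e, Whit.dG_inv, dG, map_inv]
  show f ((dG (hE.shift (N * r)) : G2 K) • Period.ptR z) (1 * h) =
    f ((dG (hE.shift N) : G2 K) • Period.ptR z) 1
  rw [one_mul, hs, Whit.dG_mul, mul_smul,
    show h = glob (dG rU : G2 K) * ((glob (dG rU : G2 K))⁻¹ * h) by group, hglob,
    show (glob (dG rU : G2 K))⁻¹ * h = 1 * ((glob (dG rU : G2 K))⁻¹ * h) by rw [one_mul],
    hU _ _ _ hw]

variable (hemb : (place K).embedding θ = thC)
include hE hemb

/-- **The weight one form of a flat vector.** The shift is `P ^ m`, the depth `P ^ R`; the period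
is known at all large powers of `P`. -/
theorem exists_lift_of_flat {P m R K₀ : ℕ} (h3 : 3 ∣ P) (hP : P ≠ 0) (hm : m ≠ 0)
    {T : Finset (HeightOneSpectrum (𝓞 K))} (hT : ∀ v, v ∈ T ↔ (P : 𝓞 K) ∈ v.asIdeal)
    {c : HeightOneSpectrum (𝓞 K) → ℂ} (hf₀ : LT2.Whit.IsGood T c f)
    (hdec : ∀ a : adelGrp K, ∃ C κ : ℝ, 0 ≤ C ∧ 0 < κ ∧ ∀ y : InfPts K, 1 ≤ (y (place K)).t →
      ‖f y a‖ ≤ C * Real.exp (-(κ * (y (place K)).t)))
    (hU : ∀ y a u, IsCong ((P : K) ^ R) u → f y (a * u) = f y a)
    (hN : ∀ v ∈ T, ∀ b : K, v.valuation K b ≤ v.valuation K (((P ^ m : ℕ) : K) / θ) →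
      ∀ y a, f y (a * atV v (nB b)) = f y a)
    (hcyc : ∀ j, K₀ ≤ j → ∀ g ∈ CongruenceSubgroup.Gamma0 (P ^ j), ∀ z : ℍ,
      cyc hE (P ^ m) f (g • z) = cyc hE (P ^ m) f z)
    (hper : ∀ j, K₀ ≤ j → ∀ [NeZero (P ^ j)], periodSum (P ^ j) (cyc hE (P ^ m) f) ≠ 0) :
    ∃ k : ℕ, k ≠ 0 ∧ 3 ∣ k ∧ ∃ F : ℍ → ℂ, MDiff F ∧
      (∀ δ : SL(2, ℤ), IsZeroAtImInfty (F ∣[(1 : ℤ)] δ)) ∧
      (∀ γ ∈ CongruenceSubgroup.Gamma k, F ∣[(1 : ℤ)] γ = F) ∧ F ≠ 0 ∧
      ∀ (p : ℕ) (a : ℂ), p.Prime → ¬p ∣ P → Mod3.IsCMPrime k p →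
        (∀ v : HeightOneSpectrum (𝓞 K), (p : 𝓞 K) ∈ v.asIdeal → c v = (√(p : ℝ) : ℂ) * a) →
        ∀ n : ℕ, (qExpansion (k : ℝ) F).coeff (p * n) +
            (if p ∣ n then (qExpansion (k : ℝ) F).coeff (n / p) else 0) =
          a * (qExpansion (k : ℝ) F).coeff n := by
  classical
  set i := R + K₀ with hi
  set rU := Period.natU K (P ^ i)
  have hPi : P ^ i ≠ 0 := pow_ne_zero _ hP
  have hPm : P ^ m ≠ 0 := pow_ne_zero _ hP
  have hrv : (rU : K) = (P : K) ^ i := by rw [Period.natU_val hPi, Nat.cast_pow]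
  have hoff : ∀ v ∉ T, v.valuation K (P : K) = 1 := fun v hv => by
    rw [← map_natCast (algebraMap (𝓞 K) K)]
    exact le_antisymm (v.valuation_le_one _)
      (not_lt.1 fun h => hv ((hT v).2 ((v.valuation_lt_one_iff_mem _).1 h)))
  have hon : ∀ v ∈ T, v.valuation K (P : K) < 1 := fun v hv => by
    rw [← map_natCast (algebraMap (𝓞 K) K)]
    exact (v.valuation_lt_one_iff_mem _).2 ((hT v).1 hv)
  have hP1 : ∀ v : HeightOneSpectrum (𝓞 K), v.valuation K (P : K) ≤ 1 :=
    fun v => Period.val_intCast_le P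
  have hsh := fun v => val_shift_le_one hE (N := P ^ m) (dvd_pow h3 hm) v
  set N₂ := P ^ m * P ^ i with hN₂
  have : NeZero N₂ := ⟨mul_ne_zero hPm hPi⟩
  have : NeZero (N₂ ^ 2) := ⟨pow_ne_zero _ (NeZero.ne _)⟩
  have hx : (rU : K) * (((P ^ m : ℕ) : K) / θ) = ((N₂ : ℕ) : K) / θ := by
    rw [hrv, hN₂]; push_cast; ring
  have hf := isLiftForm_rt (x := ((P ^ m : ℕ) : K) / θ) (x' := (P : K) ^ R) (r := rU) (T := T)
    hf₀.form hf₀.radial hdec hU hN (fun v hv => by rw [map_pow, hoff v hv, one_pow])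
    (fun v => by rw [hrv, map_pow]; exact pow_le_one₀ zero_le (hP1 v))
    (fun v => by
      rw [map_mul, hrv, map_pow, map_pow]
      exact (mul_le_of_le_one_right zero_le (hsh v)).trans
        (pow_le_pow_right_of_le_one' (hP1 v) (Nat.le_add_right R K₀)))
    (fun v hv => by
      rcases Nat.eq_zero_or_pos i with h0 | h0
      · rw [map_mul, hrv, h0, pow_zero, map_one, one_mul, map_div₀, Nat.cast_pow, map_pow]
        by_cases hθ : v.valuation K θ = 1
        · rw [hθ, div_one]; exact pow_lt_one₀ zero_le (hon v hv) hm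
        · have hlt := lt_of_le_of_ne (val_theta_le hE v) hθ
          obtain ⟨P', hP'⟩ := dvd_pow (b := P) (a := 3) h3 hm
          rw [← map_pow, ← map_div₀, show (P : K) ^ m / θ = -θ * (P' : K) by
            rw [← Nat.cast_pow, hP', shift_eq_neg hE], map_mul, Valuation.map_neg]
          exact (mul_le_of_le_one_right zero_le (Period.val_intCast_le P')).trans_lt hlt
      · rw [map_mul, hrv, map_pow]
        exact (mul_le_of_le_one_right zero_le (hsh v)).trans_lt
          (pow_lt_one₀ zero_le (hon v hv) h0.ne'))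
  rw [hx] at hf
  have hce : cyc hE N₂ (Whit.rt (partT T (dG rU)) f) = cyc hE (P ^ m) f := funext fun z =>
    cyc_rt hE hPm hPi hf₀.form.glob_smul hU (fun v hv => by rw [map_pow, hoff v hv, one_pow])
      (fun v hv => by rw [Nat.cast_pow, map_pow, hoff v hv, one_pow]) z
  have hsq : N₂ ^ 2 = P ^ ((m + i) * 2) := by rw [hN₂, ← pow_add, ← pow_mul]
  have hj : K₀ ≤ (m + i) * 2 := by omega
  obtain ⟨F, h1, h2, h4, h5, hrel⟩ := exists_lift hE hemb
    (dvd_mul_of_dvd_left (dvd_pow h3 hm) _) hf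
    (fun g hg z => by rw [hce]; exact hcyc _ hj g (hsq ▸ hg) z) (by
      rw [hce]
      have : NeZero (P ^ ((m + i) * 2)) := ⟨pow_ne_zero _ hP⟩
      convert hper _ hj using 2)
  refine ⟨9 * N₂, mul_ne_zero (by norm_num) (NeZero.ne _), dvd_mul_of_dvd_left (by norm_num) _,
    F, h1, h2, h4, h5,
    fun p a hp hpP hcm hv => hrel p a hp ?_ hcm fun v hpv => ?_⟩
  · intro hd
    refine hpP ?_
    rw [← pow_add] at hd
    rcases hp.dvd_mul.1 hd with h | h
    · exact ((Nat.prime_dvd_prime_iff_eq hp Nat.prime_three).1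
        (hp.dvd_of_dvd_pow (show p ∣ 3 ^ 2 from h))).symm ▸ h3
    · exact hp.dvd_of_dvd_pow h
  · have hvT : v ∉ T := fun h => Period.coprime_notMem
      ((Nat.Prime.coprime_iff_not_dvd hp).2 hpP) hpv ((hT v).1 h)
    rw [← hv v hpv]
    refine LT2.Whit.heckeT_rt (hf₀.eigen v hvT) ?_
    rw [partT_apply, if_neg hvT]

end FermatAgent.LT2.Lift
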